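import Mathlib

/-!
# `X ^ n - X - 1` has at most one double root, and no triple root, in every field
-/

namespace Fermat.Agent.SelmerPolynomial

open Polynomial
open scoped Polynomial

variable {k : Type*} [Field k] {n : ℕ} {c : k}

/-- The two equations of a double root. -/
lemma of_sq_dvd (h : (X - C c) ^ 2 ∣ (X ^ n - X - 1 : k[X])) :
    c ^ n = c + 1 ∧ (n : k) * c ^ (n - 1) = 1 := by
  have h1 : X - C c ∣ (X ^ n - X - 1 : k[X]) := (dvd_pow_self _ two_ne_zero).trans h
  have h2 := pow_sub_one_dvd_derivative_of_pow_dvd h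
  rw [show 2 - 1 = 1 from rfl, pow_one] at h2
  rw [dvd_iff_isRoot, IsRoot] at h1 h2
  simp only [eval_sub, eval_pow, eval_X, eval_one, derivative_sub, derivative_X_pow, derivative_X,
    derivative_one, sub_zero, eval_mul, eval_C] at h1 h2
  exact ⟨by linear_combination h1, by linear_combination h2⟩

/-- The double root is determined. -/
lemma mul_one_sub (hn : 1 ≤ n) (h : (X - C c) ^ 2 ∣ (X ^ n - X - 1 : k[X])) :
    c * (1 - (n : k)) = n ∧ (1 - (n : k)) ≠ 0 := by
  obtain ⟨h1, h2⟩ := of_sq_dvd h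
  have h3 : c * (1 - (n : k)) = n := by
    have e : c ^ (n - 1) * c = c ^ n := by rw [← pow_succ, Nat.sub_add_cancel hn]
    linear_combination (n : k) * h1 - c * h2 + (n : k) * e
  refine ⟨h3, fun h0 => ?_⟩
  rw [h0, mul_zero] at h3
  rw [← h3, sub_zero] at h0
  exact one_ne_zero h0

/-- There is at most one double root. -/
theorem eq_of_sq_dvd (hn : 1 ≤ n) {d : k} (hc : (X - C c) ^ 2 ∣ (X ^ n - X - 1 : k[X]))
    (hd : (X - C d) ^ 2 ∣ (X ^ n - X - 1 : k[X])) : c = d :=
  mul_right_cancel₀ (mul_one_sub hn hc).2 ((mul_one_sub hn hc).1.trans (mul_one_sub hn hd).1.symm)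

/-- There is no triple root. -/
theorem not_pow_three_dvd (hn : 2 ≤ n) : ¬ (X - C c) ^ 3 ∣ (X ^ n - X - 1 : k[X]) := by
  intro h
  have hd : (X - C c) ^ 2 ∣ (X ^ n - X - 1 : k[X]) := (pow_dvd_pow _ (by omega)).trans h
  obtain ⟨h1, h2⟩ := of_sq_dvd hd
  have h3 := pow_sub_one_dvd_derivative_of_pow_dvd (pow_sub_one_dvd_derivative_of_pow_dvd h)
  rw [show 3 - 1 - 1 = 1 from rfl, pow_one, dvd_iff_isRoot, IsRoot] at h3
  simp only [derivative_sub, derivative_X_pow, derivative_X, derivative_one, sub_zero,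
    derivative_mul, derivative_C, zero_mul, zero_add, eval_mul, eval_C, eval_pow, eval_X] at h3
  rcases mul_eq_zero.1 h3 with h4 | h4
  · rw [h4, zero_mul] at h2
    exact zero_ne_one h2
  rcases mul_eq_zero.1 h4 with h5 | h5
  · rw [Nat.cast_sub (by omega : 1 ≤ n), Nat.cast_one, sub_eq_zero] at h5
    exact (mul_one_sub (by omega) hd).2 (by rw [h5, sub_self])
  · rw [eq_zero_of_pow_eq_zero h5, zero_pow (by omega), zero_add] at h1
    exact zero_ne_one h1

end Fermat.Agent.SelmerPolynomial
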