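import Mathlib
import Fermat.Agent.SelmerPolynomial.Morse
import Fermat.Agent.VanDerWaerden.Criterion
import Fermat.Agent.Local.Minkowski
import Fermat.Agent.Local.Inertia

/-!
# Osada's theorem: `X ^ n - X - 1` has Galois group `Sₙ`

Every inertia element acts on the roots as the identity or a transposition, and by Minkowski the
inertia groups generate the Galois group, which is transitive by Selmer's irreducibility theorem.
-/

namespace Fermat.Agent.SelmerPolynomial

open Polynomial
open scoped Polynomial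

local notation "Qb" => AlgebraicClosure ℚ
local notation "GQ" => AlgebraicClosure ℚ ≃ₐ[ℚ] AlgebraicClosure ℚ

/-- Selmer's polynomial with integral coefficients. -/
noncomputable def selmer (n : ℕ) : ℤ[X] := X ^ n - X - 1

lemma map_selmer {R : Type*} [CommRing R] (φ : ℤ →+* R) (n : ℕ) :
    (selmer n).map φ = X ^ n - X - 1 := by
  simp [selmer]

lemma selmer_monic {n : ℕ} (hn : 2 ≤ n) : (selmer n).Monic := by
  rw [selmer, sub_sub]
  exact (monic_X_pow n).sub_of_left (by
    rw [← C_1, degree_X_add_C, degree_X_pow]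
    exact_mod_cast hn)

lemma natDegree_selmer {n : ℕ} (hn : 2 ≤ n) : (selmer n).natDegree = n := by
  rw [selmer, sub_sub, ← C_1, natDegree_sub_eq_left_of_natDegree_lt (by
    rw [natDegree_X_add_C, natDegree_X_pow]; omega), natDegree_X_pow]

lemma irreducible_selmer {n : ℕ} (hn : 2 ≤ n) :
    Irreducible ((selmer n).map (Int.castRingHom ℚ)) := by
  rw [map_selmer]
  exact X_pow_sub_X_sub_one_irreducible_rat (by omega)

/-- An inertia element moves at most two roots. -/
theorem inertia_isSwap {n : ℕ} (hn : 2 ≤ n) {A : ValuationSubring Qb} {σ : GQ}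
    (hσ : σ ∈ A.inertiaSubgroupIn ℚ)
    [DecidableEq (((selmer n).map (Int.castRingHom ℚ)).rootSet Qb)] :
    VanDerWaerden.rootsAction (selmer n) σ = 1 ∨
      (VanDerWaerden.rootsAction (selmer n) σ).IsSwap := by
  set π := VanDerWaerden.rootsAction (L := Qb) (selmer n) σ with hπ
  have haeval : ∀ x : ((selmer n).map (Int.castRingHom ℚ)).rootSet Qb,
      aeval (x : Qb) (selmer n) = 0 := fun x => by
    rw [← aeval_map_algebraMap ℚ, algebraMap_int_eq]
    exact (mem_rootSet.1 x.2).2
  let r : ((selmer n).map (Int.castRingHom ℚ)).rootSet Qb → FA.Deform.ZBar := fun x =>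
    ⟨x, selmer n, selmer_monic hn, by rw [← aeval_def]; exact haeval x⟩
  let φ : FA.Deform.ZBar →+* IsLocalRing.ResidueField A :=
    (IsLocalRing.residue A).comp (FA.Deform.zbarIncl A)
  have hφ : ∀ x, φ (r (π x)) = φ (r x) := by
    intro x
    rw [← sub_eq_zero, ← map_sub]
    refine (IsLocalRing.residue_eq_zero_iff _).2 ?_
    rw [← A.coe_mem_nonunits_iff, A.mem_nonunits_iff]
    exact (FA.Local.inert_of_mem_inertiaSubgroupIn A hσ).sub_lt _
      ((A.valuation_le_one_iff _).2 (FA.Deform.zbar_mem_valuationSubring A (r x)))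
  have hdvd : ∀ (T : Finset (((selmer n).map (Int.castRingHom ℚ)).rootSet Qb))
      (c : IsLocalRing.ResidueField A),
      (∀ x ∈ T, φ (r x) = c) →
        (X - C c) ^ T.card ∣ (X ^ n - X - 1 : (IsLocalRing.ResidueField A)[X]) := by
    intro T c hT
    have hZ : (∏ x ∈ T, (X - C (r x))) ∣ (selmer n).map (algebraMap ℤ FA.Deform.ZBar) := by
      rw [← map_dvd_map FA.Deform.ZBar.val.toRingHom Subtype.val_injective
        (monic_prod_of_monic _ _ fun x _ => monic_X_sub_C _), Polynomial.map_prod,
        Polynomial.map_map]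
      have hne : (selmer n).map ((FA.Deform.ZBar.val.toRingHom).comp (algebraMap ℤ FA.Deform.ZBar))
          ≠ 0 := map_monic_ne_zero (selmer_monic hn)
      have := (Multiset.prod_X_sub_C_dvd_iff_le_roots hne
        (T.val.map Subtype.val)).2 ((Multiset.le_iff_subset
          (T.nodup.map Subtype.val_injective)).2 fun y hy => by
            obtain ⟨x, -, rfl⟩ := Multiset.mem_map.1 hy
            rw [mem_roots hne, IsRoot, eval_map, RingHom.ext_int
              ((FA.Deform.ZBar.val.toRingHom).comp (algebraMap ℤ FA.Deform.ZBar)) (algebraMap ℤ Qb),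
              ← aeval_def]
            exact haeval x)
      refine dvd_trans (dvd_of_eq ?_) this
      rw [Multiset.map_map, Finset.prod_eq_multiset_prod]
      refine congrArg Multiset.prod (Multiset.map_congr rfl fun x _ => ?_)
      rw [Polynomial.map_sub, map_X, map_C]
      rfl
    have h := Polynomial.map_dvd φ hZ
    rw [Polynomial.map_prod, Polynomial.map_map,
      map_selmer (φ.comp (algebraMap ℤ FA.Deform.ZBar))] at h
    refine dvd_trans (dvd_of_eq ?_) h
    rw [← Finset.prod_const]
    exact Finset.prod_congr rfl fun x hx => by rw [Polynomial.map_sub, map_X, map_C, hT x hx]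
  have hsq : ∀ x, π x ≠ x →
      (X - C (φ (r x))) ^ 2 ∣ (X ^ n - X - 1 : (IsLocalRing.ResidueField A)[X]) := by
    intro x hx
    have h := hdvd {x, π x} (φ (r x)) fun z hz => by
      rcases Finset.mem_insert.1 hz with rfl | hz
      · rfl
      · rw [Finset.mem_singleton.1 hz, hφ]
    rwa [Finset.card_pair hx.symm] at h
  by_cases h1 : π = 1
  · exact Or.inl h1
  refine Or.inr (Equiv.Perm.card_support_eq_two.1 ?_)
  have hne0 : π.support.card ≠ 0 := by
    rwa [Ne, Finset.card_eq_zero, Equiv.Perm.support_eq_empty_iff]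
  have hne1 := π.card_support_ne_one
  obtain ⟨x₀, hx₀⟩ := Finset.card_pos.1 (Nat.pos_of_ne_zero hne0)
  rw [Equiv.Perm.mem_support] at hx₀
  by_contra hne2
  refine not_pow_three_dvd hn ((pow_dvd_pow _ (by omega)).trans
    (hdvd π.support (φ (r x₀)) fun x hx => ?_))
  exact eq_of_sq_dvd (by omega) (hsq x (Equiv.Perm.mem_support.1 hx)) (hsq x₀ hx₀)

/-- The absolute Galois group induces every permutation of the roots. -/
theorem surjective_rootsAction {n : ℕ} (hn : 2 ≤ n) :
    Function.Surjective (VanDerWaerden.rootsAction (L := Qb) (selmer n)) := by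
  classical
  set fQ := (selmer n).map (Int.castRingHom ℚ)
  set ψ := VanDerWaerden.rootsAction (L := Qb) (selmer n)
  set S : Set (Equiv.Perm (fQ.rootSet Qb)) := {π | π.IsSwap ∧ π ∈ ψ.range}
  set N := Subgroup.closure S
  have hconj : ∀ (g : GQ) (π : Equiv.Perm (fQ.rootSet Qb)), π ∈ N → ψ g * π * (ψ g)⁻¹ ∈ N := by
    intro g π hπ
    refine (Subgroup.closure_le
      (K := N.comap (MulAut.conj (ψ g)).toMonoidHom)).2 ?_ hπ
    rintro _ ⟨⟨a, b, hab, rfl⟩, τ, hτ⟩
    refine Subgroup.subset_closure ⟨⟨ψ g a, ψ g b, (ψ g).injective.ne hab, ?_⟩,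
      ⟨g * τ * g⁻¹, ?_⟩⟩
    · exact (Equiv.swap_apply_apply (ψ g) a b).symm
    · rw [map_mul, map_mul, map_inv, hτ]
      rfl
  have : (N.comap ψ).Normal := ⟨fun h hh g => by
    rw [Subgroup.mem_comap, map_mul, map_mul, map_inv]
    exact hconj g _ hh⟩
  have : FiniteDimensional ℚ (IntermediateField.adjoin ℚ (fQ.rootSet Qb)) := by
    have := (rootSet_finite fQ Qb).to_subtype
    exact IntermediateField.finiteDimensional_adjoin fun x _ => Algebra.IsIntegral.isIntegral x
  have htop : N.comap ψ = ⊤ := FA.Local.eq_top_of_inertia_le _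
    (IntermediateField.adjoin ℚ (fQ.rootSet Qb))
    (fun σ hσ => by
      rw [Subgroup.mem_comap, show ψ σ = 1 from Equiv.ext fun x => Subtype.ext
        (hσ x (IntermediateField.subset_adjoin ℚ _ x.2))]
      exact one_mem N)
    (fun q hq => by
      obtain ⟨A, hA⟩ := FA.Deform.exists_liesOverPrime hq
      refine ⟨A, hA, fun σ hσ => ?_⟩
      rw [Subgroup.mem_comap]
      rcases inertia_isSwap hn hσ with h | h
      · rw [show ψ σ = 1 from h]
        exact one_mem N
      · exact Subgroup.subset_closure ⟨h, σ, rfl⟩)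
  have hrange : N = ψ.range := le_antisymm ((Subgroup.closure_le _).2 fun π h => h.2) (by
    rintro _ ⟨σ, rfl⟩
    exact Subgroup.mem_comap.1 (htop ▸ Subgroup.mem_top σ))
  have : MulAction.IsPretransitive N (fQ.rootSet Qb) := by
    refine ⟨fun x y => ?_⟩
    have hirr : Irreducible fQ := irreducible_selmer hn
    have hmin : aeval (y : Qb) (minpoly ℚ (x : Qb)) = 0 := by
      rw [← minpoly.eq_of_irreducible hirr (mem_rootSet.1 x.2).2, map_mul, (mem_rootSet.1 y.2).2,
        zero_mul]
    obtain ⟨σ, hσ⟩ := minpoly.exists_algEquiv_of_root'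
      ⟨_, hirr.ne_zero, (mem_rootSet.1 x.2).2⟩ hmin
    exact ⟨⟨ψ σ, hrange.symm ▸ ⟨σ, rfl⟩⟩, Subtype.ext hσ⟩
  have hN : N = ⊤ := closure_of_isSwap_of_isPretransitive fun π h => h.1
  intro π
  exact MonoidHom.mem_range.1 (hrange ▸ hN.symm ▸ Subgroup.mem_top π)

/-- **Osada's theorem.** -/
theorem nonempty_gal_selmer {n : ℕ} (hn : 2 ≤ n) :
    Nonempty ((X ^ n - X - 1 : ℚ[X]).Gal ≃* Equiv.Perm (Fin n)) := by
  classical
  rw [← map_selmer (Int.castRingHom ℚ) n]
  set fQ := (selmer n).map (Int.castRingHom ℚ)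
  have : Fact ((fQ.map (algebraMap ℚ Qb)).Splits) := ⟨IsAlgClosed.splits _⟩
  have hcard : Fintype.card (fQ.rootSet Qb) = n := by
    rw [card_rootSet_eq_natDegree (irreducible_selmer hn).separable (IsAlgClosed.splits _),
      (selmer_monic hn).natDegree_map, natDegree_selmer hn]
  have hsurj : Function.Surjective (Gal.galActionHom fQ Qb) := by
    intro π
    obtain ⟨σ, hσ⟩ := surjective_rootsAction hn π
    refine ⟨Gal.restrict fQ Qb σ, Equiv.ext fun x => Subtype.ext ?_⟩
    rw [Gal.galActionHom_restrict, ← hσ]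
    rfl
  exact ⟨(MulEquiv.ofBijective (Gal.galActionHom fQ Qb)
    ⟨Gal.galActionHom_injective fQ Qb, hsurj⟩).trans
      (Fintype.equivFinOfCardEq hcard).permCongrHom⟩

end Fermat.Agent.SelmerPolynomial
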